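/-
S55 project, TOP-W55, leaf T4 (helper56): the maps `α_v : coind_{D_v} Z ⟶ T.I` and hypothesis (E)
(`FormalPT.ExactE α`) of helper55's formal Poitou–Tate, derived ABSTRACTLY from
* a natural transformation `η_v : T_v ∘ res ⇒ T` (dual of the localisation maps),
* local functionals `lam_v ∈ T_v(res Z)` with `∑_v η_v(lam_v) = 0` (reciprocity, P3P4),
* injectivity of `n ↦ T_v(n)(lam_v)` on `Hom_{D_v}(k[Γ], Z)` (local duality T3, injective half),
* `dim ker (⊕_v T_v(res k[Γ]) → T(k[Γ])) ≤ 1` (P6 dualised).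
Imports only the landed `EW55/{Watts,FormalPT}`.
-/
import Fermat.Agent.S55.EW55.Watts
import Fermat.Agent.S55.EW55.FormalPT

set_option autoImplicit false
set_option linter.unusedSectionVars false

open CategoryTheory

namespace Fermat.Agent.S55.FormalTop56

open Fermat.Agent.S55.EW55 Fermat.Agent.S55.EW55.FormalPT

variable {k : Type} [Field k] {Γ : Type} [Group Γ] {ι : Type} [Fintype ι]
variable (D : ι → Subgroup Γ) (Z : Rep.{0} k Γ) (T : DualFun k Γ) (Tloc : ∀ v, DualFun k ↥(D v))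

lemma sum_hom_apply {A B : Rep.{0} k Γ} {κ : Type} (s : Finset κ) (φ : κ → (A ⟶ B)) (a : A) :
    (∑ i ∈ s, φ i).hom a = ∑ i ∈ s, (φ i).hom a := by
  classical
  induction s using Finset.induction_on with
  | empty => rfl
  | insert i s hi ih =>
    rw [Finset.sum_insert hi, Finset.sum_insert hi, Rep.add_hom, ← ih]
    rfl

/-- restriction to `D v` -/
abbrev resD (v : ι) (M : Rep.{0} k Γ) : Rep.{0} k ↥(D v) := Rep.res (D v).subtype M

/-- restriction of a morphism to `D v` -/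
abbrev resHom (v : ι) {A B : Rep.{0} k Γ} (f : A ⟶ B) : resD D v A ⟶ resD D v B :=
  Rep.resMap (D v).subtype f

lemma resHom_hom_apply (v : ι) {A B : Rep.{0} k Γ} (f : A ⟶ B) (a : A) :
    (resHom D v f).hom a = f.hom a := rfl

lemma resHom_id (v : ι) (A : Rep.{0} k Γ) : resHom D v (𝟙 A) = 𝟙 (resD D v A) := rfl

lemma resHom_comp (v : ι) {A B C : Rep.{0} k Γ} (f : A ⟶ B) (g : B ⟶ C) :
    resHom D v (f ≫ g) = resHom D v f ≫ resHom D v g := rfl

/-- the local-to-global data: a natural transformation `T_v ∘ res ⇒ T` for every `v` and local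
classes `lam v ∈ T_v (res Z)` -/
structure LocData where
  η : ∀ (v : ι) (M : Rep.{0} k Γ), (Tloc v).obj (resD D v M) →ₗ[k] T.obj M
  nat : ∀ (v : ι) {A B : Rep.{0} k Γ} (f : A ⟶ B) (t : (Tloc v).obj (resD D v B)),
    η v A ((Tloc v).map (resHom D v f) t) = T.map f (η v B t)
  lam : ∀ v : ι, (Tloc v).obj (resD D v Z)

/-- the counit `res (coind Z) ⟶ res Z`, `f ↦ f 1` -/
noncomputable def counit (v : ι) : resD D v (CoindZ D Z v) ⟶ resD D v Z :=
  Rep.ofHom (ρ := (resD D v (CoindZ D Z v)).ρ) (σ := (resD D v Z).ρ)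
    ⟨{ toFun := fun f => f.1 1
       map_add' := fun _ _ => rfl
       map_smul' := fun _ _ => rfl }, fun d => by
      ext f
      show ((CoindZ D Z v).ρ (d : Γ) f).1 1 = Z.ρ (d : Γ) (f.1 1)
      rw [CoindZ_ρ_apply, one_mul]
      have := CoindZ_mem D Z v f (d : Γ) d.2 1
      rwa [mul_one] at this⟩

lemma counit_hom_apply (v : ι) (f : CoindZ D Z v) : (counit D Z v).hom f = f.1 1 := rfl

variable {D Z}

/-- Frobenius reciprocity: a `D v`-map `n : res M ⟶ res Z` gives `M ⟶ coind Z`,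
`m ↦ (x ↦ n (x • m))` -/
noncomputable def frob (v : ι) {M : Rep.{0} k Γ} (n : resD D v M ⟶ resD D v Z) :
    M ⟶ CoindZ D Z v :=
  Rep.ofHom (ρ := M.ρ)
    (σ := Representation.coind (D v).subtype (Rep.res (D v).subtype Z).ρ)
    ⟨{ toFun := fun m => ⟨fun x => n.hom (M.ρ x m), fun d x => by
          show n.hom (M.ρ ((d : Γ) * x) m) = Z.ρ (d : Γ) (n.hom (M.ρ x m))
          rw [map_mul]
          exact Rep.hom_comm_apply n d (M.ρ x m)⟩
       map_add' := fun m m' => by
         apply Subtype.ext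
         funext x
         show n.hom (M.ρ x (m + m')) = n.hom (M.ρ x m) + n.hom (M.ρ x m')
         rw [map_add, map_add]
       map_smul' := fun c m => by
         apply Subtype.ext
         funext x
         show n.hom (M.ρ x (c • m)) = c • n.hom (M.ρ x m)
         rw [map_smul, map_smul] }, fun γ => by
      ext m x
      show n.hom (M.ρ x (M.ρ γ m)) = n.hom (M.ρ (x * γ) m)
      rw [map_mul]
      rfl⟩

lemma frob_hom_apply (v : ι) {M : Rep.{0} k Γ} (n : resD D v M ⟶ resD D v Z) (m : M) (x : Γ) :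
    ((frob v n).hom m).1 x = n.hom (M.ρ x m) := rfl

lemma resHom_frob_counit (v : ι) {M : Rep.{0} k Γ} (n : resD D v M ⟶ resD D v Z) :
    resHom D v (frob v n) ≫ counit D Z v = n := by
  ext m
  show ((frob v n).hom m).1 1 = n.hom m
  rw [frob_hom_apply, map_one]
  rfl

lemma diag_eq_frob (v : ι) : diag D Z v = frob v (𝟙 (resD D v Z)) := by
  ext z x
  rfl

/-! ### the maps `α_v` -/

variable {T Tloc}
variable (L : LocData D Z T Tloc)

/-- `ψ_v : Hom_{D_v}(res M, res Z) → T_v(res M)`, `n ↦ T_v(n)(lam_v)` -/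
noncomputable def psiOf (v : ι) (M : Rep.{0} k Γ) :
    (resD D v M ⟶ resD D v Z) →ₗ[k] (Tloc v).obj (resD D v M) where
  toFun n := (Tloc v).map n (L.lam v)
  map_add' n n' := (Tloc v).map_add_apply n n' _
  map_smul' c n := (Tloc v).map_smul_apply c n _

lemma psiOf_apply (v : ι) (M : Rep.{0} k Γ) (n : resD D v M ⟶ resD D v Z) :
    psiOf L v M n = (Tloc v).map n (L.lam v) := rfl

/-- `α_v : coind_{D_v} Z ⟶ T.I`, the Yoneda image of `η_v (T_v(counit)(lam_v))` -/
noncomputable def alpha (v : ι) : CoindZ D Z v ⟶ T.I :=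
  T.Phi (CoindZ D Z v) (L.η v (CoindZ D Z v) (psiOf L v _ (counit D Z v)))

/-- the fundamental compatibility: `frob n ≫ α_v = Φ_M (η_v (ψ_v n))` -/
theorem frob_comp_alpha (v : ι) {M : Rep.{0} k Γ} (n : resD D v M ⟶ resD D v Z) :
    frob v n ≫ alpha L v = T.Phi M (L.η v M (psiOf L v M n)) := by
  rw [alpha, ← T.Phi_natural, ← L.nat, psiOf_apply, psiOf_apply, ← (Tloc v).map_comp_apply,
    resHom_frob_counit]

/-- the dual of the total localisation map of `M` -/
noncomputable def aMap (M : Rep.{0} k Γ) :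
    (∀ v, (Tloc v).obj (resD D v M)) →ₗ[k] T.obj M :=
  ∑ v, (L.η v M) ∘ₗ LinearMap.proj v

lemma aMap_apply (M : Rep.{0} k Γ) (y : ∀ v, (Tloc v).obj (resD D v M)) :
    aMap L M y = ∑ v, L.η v M (y v) := by
  simp [aMap, LinearMap.sum_apply]

/-- reciprocity `∑_v η_v(lam_v) = 0` kills the diagonal -/
theorem S_alpha_diag (hrec : ∑ v, L.η v Z (L.lam v) = 0) (z : Z) :
    S (alpha L) (fun v => (diag D Z v).hom z) = 0 := by
  rw [S_apply]
  have h : ∀ v, (alpha L v).hom ((diag D Z v).hom z) = (T.Phi Z (L.η v Z (L.lam v))).hom z := by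
    intro v
    have h1 := frob_comp_alpha L v (𝟙 (resD D v Z))
    rw [← diag_eq_frob, psiOf_apply, (Tloc v).map_id_apply] at h1
    rw [← h1]
    rfl
  simp only [h]
  have h2 : ∑ v, (T.Phi Z (L.η v Z (L.lam v))).hom z
      = (T.Phi Z (∑ v, L.η v Z (L.lam v))).hom z := by
    rw [map_sum, sum_hom_apply]
  rw [h2, hrec, map_zero]
  rfl

/-! ### hypothesis (E) -/

/-- `x ↦ (r ↦ (r • x) 1)`: the inverse Frobenius reciprocity for `M = k[Γ]` -/
noncomputable def nOf (v : ι) :
    CoindZ D Z v →ₗ[k] (resD D v (Rep.leftRegular k Γ) ⟶ resD D v Z) where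
  toFun x := resHom D v (Rep.leftRegularHom (CoindZ D Z v) x) ≫ counit D Z v
  map_add' x x' := by
    refine Rep.hom_ext (DFunLike.ext _ _ fun r => ?_)
    show ((Rep.leftRegularHom (CoindZ D Z v) (x + x')).hom r).1 1
      = ((Rep.leftRegularHom (CoindZ D Z v) x).hom r).1 1
        + ((Rep.leftRegularHom (CoindZ D Z v) x').hom r).1 1
    rw [leftRegularHom_add, Rep.add_hom]
    rfl
  map_smul' c x := by
    refine Rep.hom_ext (DFunLike.ext _ _ fun r => ?_)
    show ((Rep.leftRegularHom (CoindZ D Z v) (c • x)).hom r).1 1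
      = c • ((Rep.leftRegularHom (CoindZ D Z v) x).hom r).1 1
    rw [leftRegularHom_smul, Rep.smul_hom]
    rfl

lemma nOf_hom_apply (v : ι) (x : CoindZ D Z v) (r : Rep.leftRegular k Γ) :
    (nOf (Z := Z) v x).hom r = ((Rep.leftRegularHom (CoindZ D Z v) x).hom r).1 1 := rfl

lemma frob_nOf (v : ι) (x : CoindZ D Z v) :
    frob v (nOf v x) = Rep.leftRegularHom (CoindZ D Z v) x := by
  apply leftRegular_hom_ext
  rw [Rep.leftRegularHom_hom_single, one_smul, map_one]
  apply Subtype.ext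
  funext y
  rw [frob_hom_apply, nOf_hom_apply]
  have h1 : (Rep.leftRegular k Γ).ρ y (MonoidAlgebra.single (1 : Γ) (1 : k))
      = MonoidAlgebra.single y (1 : k) := by
    simp
  rw [h1, Rep.leftRegularHom_hom_single, one_smul, CoindZ_ρ_apply, one_mul]
  rfl

lemma leftRegularHom_single_one (M : Rep.{0} k Γ) (x : M) :
    (Rep.leftRegularHom M x).hom (MonoidAlgebra.single (1 : Γ) (1 : k)) = x := by
  rw [Rep.leftRegularHom_hom_single, one_smul, map_one]
  rfl

lemma nOf_injective (v : ι) : Function.Injective (nOf (D := D) (Z := Z) v) := by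
  intro x x' h
  have h1 := frob_nOf v x
  rw [h, frob_nOf] at h1
  have h2 := congrArg (fun φ : Rep.leftRegular k Γ ⟶ CoindZ D Z v =>
    φ.hom (MonoidAlgebra.single (1 : Γ) (1 : k))) h1
  simp only at h2
  rw [leftRegularHom_single_one, leftRegularHom_single_one] at h2
  exact h2.symm

/-- `α_v x = η_v (ψ_v (nOf x))` in `T(k[Γ])` -/
theorem alpha_hom_apply (v : ι) (x : CoindZ D Z v) :
    (alpha L v).hom x = L.η v _ (psiOf L v _ (nOf v x)) := by
  have h0 : (Rep.leftRegularHom (CoindZ D Z v) x).hom (MonoidAlgebra.single (1 : Γ) (1 : k)) = x := by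
    rw [Rep.leftRegularHom_hom_single, one_smul, map_one]
    rfl
  have h1 : (alpha L v).hom x
      = (Rep.leftRegularHom (CoindZ D Z v) x ≫ alpha L v).hom
          (MonoidAlgebra.single (1 : Γ) (1 : k)) := by
    conv_lhs => rw [← h0]
    rfl
  rw [h1, ← frob_nOf, frob_comp_alpha, DualFun.Phi_hom_apply]
  have h2 : Rep.leftRegularHom (Rep.leftRegular k Γ) (MonoidAlgebra.single (1 : Γ) (1 : k))
      = 𝟙 _ := rmul_one
  rw [h2, T.map_id_apply]

theorem S_alpha_eq (x : ∀ v, CoindZ D Z v) :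
    S (alpha L) x = aMap L (Rep.leftRegular k Γ) (fun v => psiOf L v _ (nOf v (x v))) := by
  rw [S_apply, aMap_apply]
  exact Finset.sum_congr rfl fun v _ => alpha_hom_apply L v (x v)

/-- **hypothesis (E)** of the formal Poitou–Tate lemma -/
theorem exactE [Nonempty ι] (hZ : ∃ z : Z, z ≠ 0)
    (hrec : ∑ v, L.η v Z (L.lam v) = 0)
    (hinj : ∀ v, Function.Injective (psiOf L v (Rep.leftRegular k Γ)))
    (hdim : ∀ y ∈ LinearMap.ker (aMap L (Rep.leftRegular k Γ)),
      ∀ y' ∈ LinearMap.ker (aMap L (Rep.leftRegular k Γ)),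
        ∃ c c' : k, (c ≠ 0 ∨ c' ≠ 0) ∧ c • y + c' • y' = 0) :
    ExactE (alpha L) := by
  intro x
  constructor
  · intro hx
    obtain ⟨z₀, hz₀⟩ := hZ
    -- the linear map Θ
    let Θ : (∀ v, CoindZ D Z v) →ₗ[k] (∀ v, (Tloc v).obj (resD D v (Rep.leftRegular k Γ))) :=
      LinearMap.pi fun v => (psiOf L v _ ∘ₗ nOf v) ∘ₗ LinearMap.proj v
    have hΘ : ∀ w, S (alpha L) w = aMap L (Rep.leftRegular k Γ) (Θ w) := fun w => S_alpha_eq L w
    have hΘinj : Function.Injective Θ := by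
      intro w w' h
      funext v
      have := congrFun h v
      exact nOf_injective v (hinj v this)
    set x₀ : ∀ v, CoindZ D Z v := fun v => (diag D Z v).hom z₀ with hx₀
    have hx₀0 : S (alpha L) x₀ = 0 := S_alpha_diag L hrec z₀
    have hy : Θ x ∈ LinearMap.ker (aMap L (Rep.leftRegular k Γ)) := by
      rw [LinearMap.mem_ker, ← hΘ, hx]
    have hy₀ : Θ x₀ ∈ LinearMap.ker (aMap L (Rep.leftRegular k Γ)) := by
      rw [LinearMap.mem_ker, ← hΘ, hx₀0]
    obtain ⟨c, c', hcc, hlin⟩ := hdim _ hy _ hy₀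
    have hlin' : c • x + c' • x₀ = 0 := by
      apply hΘinj
      rw [map_add, map_smul, map_smul, hlin, map_zero]
    by_cases hc : c = 0
    · exfalso
      have hc' : c' ≠ 0 := by
        rcases hcc with h | h
        · exact absurd hc h
        · exact h
      rw [hc, zero_smul, zero_add] at hlin'
      have hx₀z : x₀ = 0 := by
        have := congrArg (fun w => c'⁻¹ • w) hlin'
        simpa [smul_smul, inv_mul_cancel₀ hc'] using this
      obtain ⟨v⟩ := ‹Nonempty ι›
      have h1 : ((diag D Z v).hom z₀).1 1 = 0 := by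
        have := congrFun hx₀z v
        rw [hx₀] at this
        simp only at this
        rw [this]
        rfl
      rw [diag_apply, map_one] at h1
      exact hz₀ h1
    · refine ⟨(-(c⁻¹ * c')) • z₀, fun v => ?_⟩
      have h1 : x = (-(c⁻¹ * c')) • x₀ := by
        have h2 : c • x = -(c' • x₀) := eq_neg_of_add_eq_zero_left hlin'
        have h3 := congrArg (fun w => c⁻¹ • w) h2
        simp only [smul_smul, inv_mul_cancel₀ hc, one_smul, smul_neg] at h3
        exact h3.trans (neg_smul _ _).symm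
      rw [h1, map_smul]
      rfl
  · rintro ⟨z, hz⟩
    have : x = fun v => (diag D Z v).hom z := funext hz
    rw [this]
    exact S_alpha_diag L hrec z

/-! ### the map `Pmap` of the formal Poitou–Tate lemma in terms of `η` and `ψ` -/

/-- a `D v`-invariant element of `Hom_k(M, Z)` as a morphism `res M ⟶ res Z` -/
noncomputable def homOf {M : Rep.{0} k Γ} (n : locInv D M Z) (v : ι) :
    resD D v M ⟶ resD D v Z :=
  Rep.ofHom (ρ := (resD D v M).ρ) (σ := (resD D v Z).ρ) ⟨n.1 v, fun d => by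
    ext m
    show n.1 v (M.ρ (d : Γ) m) = Z.ρ (d : Γ) (n.1 v m)
    have h := n.2 v (d : Γ) d.2
    have h2 : Z.ρ (d : Γ) (n.1 v (M.ρ (d : Γ)⁻¹ (M.ρ (d : Γ) m))) = n.1 v (M.ρ (d : Γ) m) :=
      congrArg (fun f : M →ₗ[k] Z => f (M.ρ (d : Γ) m)) h
    rw [← h2, rho_inv_rho]⟩

lemma homOf_hom_apply {M : Rep.{0} k Γ} (n : locInv D M Z) (v : ι) (m : M) :
    (homOf n v).hom m = n.1 v m := rfl

/-- `Pmap = Φ_M ∘ (dual of localisation) ∘ ψ` -/
theorem Pmap_eq (hE : ExactE (alpha L)) {M : Rep.{0} k Γ} (n : locInv D M Z) :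
    Pmap hE n = T.Phi M (aMap L M fun v => psiOf L v M (homOf n v)) := by
  refine Rep.hom_ext (DFunLike.ext _ _ fun m => ?_)
  rw [Pmap_hom_apply]
  have h : ∀ v, lift (inclLoc D M Z n) v m = (frob v (homOf n v)).hom m := by
    intro v
    apply Subtype.ext
    funext x
    rw [lift_inclLoc]
    rfl
  simp only [h]
  rw [S_apply]
  have h2 : ∀ v, (alpha L v).hom ((frob v (homOf n v)).hom m)
      = (T.Phi M (L.η v M (psiOf L v M (homOf n v)))).hom m := by
    intro v
    rw [← frob_comp_alpha]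
    rfl
  simp only [h2]
  rw [aMap_apply, map_sum, sum_hom_apply]

/-- every `D v`-morphism `res M ⟶ res Z` comes from `locInv` -/
noncomputable def locInvOf {M : Rep.{0} k Γ} (n : ∀ v, resD D v M ⟶ resD D v Z) : locInv D M Z :=
  ⟨fun v => (n v).hom.toLinearMap, fun v d hd => by
    ext m
    show Z.ρ d ((n v).hom (M.ρ d⁻¹ m)) = (n v).hom m
    have h := Rep.hom_comm_apply (n v) (⟨d, hd⟩ : D v) (M.ρ d⁻¹ m)
    have h3 : (n v).hom (M.ρ d (M.ρ d⁻¹ m)) = Z.ρ d ((n v).hom (M.ρ d⁻¹ m)) := h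
    rw [← h3, rho_rho_inv]⟩

lemma homOf_locInvOf {M : Rep.{0} k Γ} (n : ∀ v, resD D v M ⟶ resD D v Z) (v : ι) :
    homOf (locInvOf n) v = n v := by
  refine Rep.hom_ext (DFunLike.ext _ _ fun m => ?_)
  rfl

/-- `range Pmap = Φ_M (range (aMap ∘ ψ))` -/
theorem range_Pmap (hE : ExactE (alpha L)) (M : Rep.{0} k Γ) :
    (LinearMap.range (Pmap (M := M) hE) : Set (M ⟶ T.I))
      = {φ | ∃ n : ∀ v, resD D v M ⟶ resD D v Z,
          φ = T.Phi M (aMap L M fun v => psiOf L v M (n v))} := by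
  ext φ
  constructor
  · rintro ⟨n, rfl⟩
    exact ⟨fun v => homOf n v, Pmap_eq L hE n⟩
  · rintro ⟨n, rfl⟩
    refine ⟨locInvOf n, ?_⟩
    rw [Pmap_eq]
    simp only [homOf_locInvOf]

end Fermat.Agent.S55.FormalTop56
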